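import Fermat.Agent.S55.H.SI.Phi

/-!
# S55, block [H]: bridge to the analytic second inequality.  Norms of ideals are killed by `φ`.
-/

set_option autoImplicit false

namespace Fermat.Agent.S55.H.SI

open IsDedekindDomain NumberField
open scoped nonZeroDivisors

variable {K L : Type*} [Field K] [NumberField K] [Field L] [NumberField L] [Algebra K L]

variable (K) in
/-- the relative norm on nonzero ideals. -/
noncomputable def relNormNZ : (Ideal (𝓞 L))⁰ →* (Ideal (𝓞 K))⁰ where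
  toFun I := ⟨Ideal.relNorm (𝓞 K) (I : Ideal (𝓞 L)), mem_nonZeroDivisors_of_ne_zero (by
    rw [Ne, Ideal.zero_eq_bot, Ideal.relNorm_eq_bot_iff]
    exact nonZeroDivisors.ne_zero I.2)⟩
  map_one' := Subtype.ext (map_one _)
  map_mul' I J := Subtype.ext (map_mul _ _ _)

lemma coe_relNormNZ (I : (Ideal (𝓞 L))⁰) :
    ((relNormNZ K I : (Ideal (𝓞 K))⁰) : Ideal (𝓞 K)) = Ideal.relNorm (𝓞 K) (I : Ideal (𝓞 L)) := rfl

lemma exists_relNormNZ_pNZ (w : HeightOneSpectrum (𝓞 L)) :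
    ∃ s : ℕ, relNormNZ K (pNZ w) = pNZ (w.under (𝓞 K)) ^ s := by
  have : w.asIdeal.LiesOver (w.under (𝓞 K)).asIdeal := ⟨rfl⟩
  obtain ⟨s, hs⟩ := Ideal.exists_relNorm_eq_pow_of_isPrime w.asIdeal (w.under (𝓞 K)).asIdeal
  exact ⟨s, Subtype.ext hs⟩

lemma relNormNZ_pNZ_of_absNorm_eq (v : HeightOneSpectrum (𝓞 K)) (w : HeightOneSpectrum (𝓞 L))
    (hwv : w.asIdeal.LiesOver v.asIdeal) (h : Ideal.absNorm w.asIdeal = Ideal.absNorm v.asIdeal) :
    relNormNZ K (pNZ w) = pNZ v := by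
  obtain ⟨s, hs⟩ := Ideal.exists_relNorm_eq_pow_of_isPrime w.asIdeal v.asIdeal
  have h1 := Ideal.absNorm_relNorm (𝓞 K) (𝓞 L) w.asIdeal
  rw [hs, map_pow, h] at h1
  have h2 : 2 ≤ Ideal.absNorm v.asIdeal := by
    have h0 : Ideal.absNorm v.asIdeal ≠ 0 := by
      rw [Ne, Ideal.absNorm_eq_zero_iff]; exact v.ne_bot
    have h1 : Ideal.absNorm v.asIdeal ≠ 1 := by
      rw [Ne, Ideal.absNorm_eq_one_iff]; exact v.isPrime.ne_top
    omega
  have h3 : s = 1 := by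
    have := Nat.pow_right_injective h2 (h1.trans (pow_one _).symm)
    exact this
  refine Subtype.ext ?_
  rw [coe_relNormNZ]
  change Ideal.relNorm (𝓞 K) w.asIdeal = v.asIdeal
  rw [hs, h3, pow_one]

variable {T : Set (HeightOneSpectrum (𝓞 K))}

theorem phiT_relNormNZ (hclK : TPrin K T)
    (hclL : TPrin L {w : HeightOneSpectrum (𝓞 L) | w.under (𝓞 K) ∈ T})
    (N : Subgroup Kˣ) (hN : T.unit K ≤ N)
    (hN' : (Units.map (Algebra.norm K : L →* K)).range ≤ N) (𝔄 : (Ideal (𝓞 L))⁰) :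
    phiT hclK N hN (relNormNZ K 𝔄) = 1 := by
  set Φ : (Ideal (𝓞 L))⁰ →* Kˣ ⧸ N := (phiT hclK N hN).comp (relNormNZ K) with hΦ
  set T' : Set (HeightOneSpectrum (𝓞 L)) := {w | w.under (𝓞 K) ∈ T} with hT'
  -- (i)
  have h1 : ∀ w ∈ T', Φ (pNZ w) = 1 := by
    intro w hw
    obtain ⟨s, hs⟩ := exists_relNormNZ_pNZ (K := K) w
    rw [hΦ, MonoidHom.comp_apply, hs, map_pow,
      phiT_eq hclK N hN (pNZ (w.under (𝓞 K))) 1 (rel_prime hw), QuotientGroup.mk_one, one_pow]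
  -- (ii)
  have h2 : ∀ (a : 𝓞 L) (ha : a ≠ 0),
      Φ ⟨Ideal.span {a}, mem_nonZeroDivisors_of_ne_zero (by simpa using ha)⟩ = 1 := by
    intro a ha
    have haL : (a : L) ≠ 0 := by simpa using ha
    have hn : Algebra.intNorm (𝓞 K) (𝓞 L) a ≠ 0 := by
      rwa [Ne, Algebra.intNorm_eq_zero]
    rw [hΦ, MonoidHom.comp_apply,
      phiT_eq hclK N hN _ (Units.map (Algebra.norm K : L →* K) (Units.mk0 (a : L) haL)) ?_]
    · rw [QuotientGroup.eq_one_iff]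
      exact hN' ⟨_, rfl⟩
    · rw [coe_relNormNZ]
      change Rel T (Ideal.relNorm (𝓞 K) (Ideal.span {a})) _
      rw [Ideal.relNorm_singleton]
      refine rel_span hn _ ?_
      rw [Units.coe_map, Units.val_mk0]
      exact (Algebra.algebraMap_intNorm (A := 𝓞 K) (K := K) (L := L) (B := 𝓞 L) a).symm
  -- (iii)
  obtain ⟨γ, hγ⟩ := exists_rel hclL (nonZeroDivisors.ne_zero 𝔄.2)
  obtain ⟨a, b, hb, hab⟩ := IsFractionRing.div_surjective (A := 𝓞 L) (γ : L)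
  have hb0 : b ≠ 0 := nonZeroDivisors.ne_zero hb
  have ha0 : a ≠ 0 := by
    rintro rfl
    rw [map_zero, zero_div] at hab
    exact γ.ne_zero hab.symm
  have h𝔄 : (𝔄 : Ideal (𝓞 L)) ≠ 0 := nonZeroDivisors.ne_zero 𝔄.2
  have hsb : Ideal.span {b} ≠ (0 : Ideal (𝓞 L)) := by simpa using hb0
  have h3 := hom_eq_of_cnt_eq (A := Kˣ ⧸ N) Φ T' h1
    ⟨Ideal.span {a}, mem_nonZeroDivisors_of_ne_zero (by simpa using ha0)⟩
    (⟨Ideal.span {b}, mem_nonZeroDivisors_of_ne_zero (by simpa using hb0)⟩ * 𝔄) (by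
      intro w hw
      change cnt w (Ideal.span {a}) = cnt w (Ideal.span {b} * 𝔄)
      rw [cnt_mul w hsb h𝔄]
      have h4 := hγ w hw
      rw [← hab, map_div₀, valuation_algebraMap_eq L w ha0, valuation_algebraMap_eq L w hb0,
        div_eq_iff WithZero.exp_ne_zero, ← WithZero.exp_add, WithZero.exp_inj] at h4
      omega)
  rw [map_mul, h2 a ha0, h2 b hb0] at h3
  exact (h3.trans (one_mul (Φ 𝔄))).symm

end Fermat.Agent.S55.H.SI
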