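import Fermat.Agent.S55.H.SI.Tools

/-!
# S55, block [H]: bridge to the analytic second inequality.  The map `φ`.
-/

set_option autoImplicit false

namespace Fermat.Agent.S55.H.SI

open IsDedekindDomain
open scoped nonZeroDivisors

variable {R : Type*} [CommRing R] [IsDedekindDomain R]
  {K : Type*} [Field K] [Algebra R K] [IsFractionRing R K]

/-- `c` generates `I` outside `T`. -/
def Rel (T : Set (HeightOneSpectrum R)) (I : Ideal R) (c : Kˣ) : Prop :=
  ∀ v, v ∉ T → v.valuation K (c : K) = WithZero.exp (-(cnt v I : ℤ))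

variable {T : Set (HeightOneSpectrum R)}

lemma Rel.mul {I J : Ideal R} {c d : Kˣ} (hI : I ≠ 0) (hJ : J ≠ 0) (h1 : Rel T I c)
    (h2 : Rel T J d) : Rel T (I * J) (c * d) := by
  intro v hv
  rw [Units.val_mul, map_mul, h1 v hv, h2 v hv, cnt_mul v hI hJ, ← WithZero.exp_add]
  congr 1
  push_cast
  ring

lemma Rel.unique {I : Ideal R} {c d : Kˣ} (h1 : Rel T I c) (h2 : Rel T I d) :
    c⁻¹ * d ∈ T.unit K := by
  intro v hv
  rw [Units.val_mul, map_mul, Units.val_inv_eq_inv_val, map_inv₀, h1 v hv, h2 v hv]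
  exact inv_mul_cancel₀ WithZero.exp_ne_zero

lemma rel_one : Rel T (1 : Ideal R) (1 : Kˣ) := by
  intro v _
  rw [cnt_one]
  simp

lemma rel_span {r : R} (hr : r ≠ 0) (c : Kˣ) (hc : (c : K) = algebraMap R K r) :
    Rel T (Ideal.span {r}) c := by
  intro v _
  rw [hc, valuation_algebraMap_eq K v hr]

lemma rel_prime {v : HeightOneSpectrum R} (hv : v ∈ T) : Rel T v.asIdeal (1 : Kˣ) := by
  intro w hw
  have : w ≠ v := fun h => hw (h ▸ hv)
  rw [cnt_of_ne this]
  simp

/-- `Cl_T = 1`. -/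
def TPrin (K : Type*) [Field K] [Algebra R K] [IsFractionRing R K]
    (T : Set (HeightOneSpectrum R)) : Prop :=
  ∀ a : HeightOneSpectrum R →₀ ℤ, ∃ c : Kˣ, ∀ v, v ∉ T →
    v.valuationOfNeZero c = Multiplicative.ofAdd (a v)

lemma exists_rel (hcl : TPrin K T) {I : Ideal R} (hI : I ≠ 0) : ∃ c : Kˣ, Rel T I c := by
  have hfin : (Function.support fun v : HeightOneSpectrum R => -(cnt v I : ℤ)).Finite := by
    refine (finite_cnt_ne_zero hI).subset ?_
    intro v hv
    simpa using hv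
  obtain ⟨c, hc⟩ := hcl (Finsupp.ofSupportFinite _ hfin)
  refine ⟨c, fun v hv => ?_⟩
  rw [← HeightOneSpectrum.valuationOfNeZero_eq, hc v hv]
  rfl

/-- the map `I ↦ [c]`, `c` a generator of `I` outside `T`. -/
noncomputable def phiT (hcl : TPrin K T) (N : Subgroup Kˣ) (hN : T.unit K ≤ N) :
    (Ideal R)⁰ →* Kˣ ⧸ N where
  toFun I := QuotientGroup.mk (exists_rel hcl (nonZeroDivisors.ne_zero I.2)).choose
  map_one' := by
    rw [← QuotientGroup.mk_one, QuotientGroup.eq]
    exact hN (Rel.unique (exists_rel hcl (nonZeroDivisors.ne_zero (1 : (Ideal R)⁰).2)).choose_spec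
      rel_one)
  map_mul' I J := by
    rw [← QuotientGroup.mk_mul, QuotientGroup.eq]
    exact hN (Rel.unique (exists_rel hcl (nonZeroDivisors.ne_zero (I * J).2)).choose_spec
      (Rel.mul (nonZeroDivisors.ne_zero I.2) (nonZeroDivisors.ne_zero J.2)
        (exists_rel hcl (nonZeroDivisors.ne_zero I.2)).choose_spec
        (exists_rel hcl (nonZeroDivisors.ne_zero J.2)).choose_spec))

lemma phiT_eq (hcl : TPrin K T) (N : Subgroup Kˣ) (hN : T.unit K ≤ N) (I : (Ideal R)⁰) (c : Kˣ)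
    (h : Rel T (I : Ideal R) c) : phiT hcl N hN I = QuotientGroup.mk c := by
  change QuotientGroup.mk _ = _
  rw [QuotientGroup.eq]
  exact hN (Rel.unique (exists_rel hcl (nonZeroDivisors.ne_zero I.2)).choose_spec h)

end Fermat.Agent.S55.H.SI
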