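import Mathlib

/-!
# S55, block [H]: bridge to the analytic second inequality.  Dedekind tools.
-/

set_option autoImplicit false

namespace Fermat.Agent.S55.H.SI

open IsDedekindDomain
open scoped nonZeroDivisors

variable {R : Type*} [CommRing R] [IsDedekindDomain R]

/-- exponent of `v` in `I`. -/
noncomputable def cnt (v : HeightOneSpectrum R) (I : Ideal R) : ℕ :=
  (Associates.mk v.asIdeal).count (Associates.mk I).factors

lemma cnt_mul (v : HeightOneSpectrum R) {I J : Ideal R} (hI : I ≠ 0) (hJ : J ≠ 0) :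
    cnt v (I * J) = cnt v I + cnt v J := by
  unfold cnt
  rw [← Associates.mk_mul_mk]
  exact Associates.count_mul (Associates.mk_ne_zero.mpr hI) (Associates.mk_ne_zero.mpr hJ)
    v.associates_irreducible

lemma cnt_eq_zero_iff (v : HeightOneSpectrum R) {I : Ideal R} (hI : I ≠ 0) :
    cnt v I = 0 ↔ ¬ I ≤ v.asIdeal := by
  unfold cnt
  rw [← Ideal.dvd_iff_le, ← Associates.count_ne_zero_iff_dvd hI v.irreducible, not_not]

lemma cnt_one (v : HeightOneSpectrum R) : cnt v (1 : Ideal R) = 0 := by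
  rw [cnt_eq_zero_iff v one_ne_zero, Ideal.one_eq_top, top_le_iff]
  exact v.isPrime.ne_top

lemma cnt_self (v : HeightOneSpectrum R) : cnt v v.asIdeal = 1 := by
  unfold cnt
  exact Associates.count_self v.associates_irreducible

lemma cnt_of_ne {v w : HeightOneSpectrum R} (h : v ≠ w) : cnt v w.asIdeal = 0 := by
  rw [cnt_eq_zero_iff v w.ne_bot]
  intro hle
  exact h (HeightOneSpectrum.ext (w.isMaximal.eq_of_le v.isPrime.ne_top hle).symm)

lemma finite_cnt_ne_zero {I : Ideal R} (hI : I ≠ 0) :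
    {v : HeightOneSpectrum R | cnt v I ≠ 0}.Finite := by
  refine (Ideal.finite_factors hI).subset ?_
  intro v hv
  simp only [Set.mem_ofPred_eq] at hv ⊢
  rw [ne_eq, cnt_eq_zero_iff v hI, not_not] at hv
  exact Ideal.dvd_iff_le.mpr hv

variable (K : Type*) [Field K] [Algebra R K] [IsFractionRing R K]

lemma valuation_algebraMap_eq (v : HeightOneSpectrum R) {r : R} (hr : r ≠ 0) :
    v.valuation K (algebraMap R K r) = WithZero.exp (-(cnt v (Ideal.span {r}) : ℤ)) := by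
  rw [HeightOneSpectrum.valuation_of_algebraMap, HeightOneSpectrum.intValuation_if_neg v hr]
  rfl

omit K in
/-- a prime as an element of `(Ideal R)⁰`. -/
def pNZ (v : HeightOneSpectrum R) : (Ideal R)⁰ :=
  ⟨v.asIdeal, mem_nonZeroDivisors_of_ne_zero v.ne_bot⟩

lemma eq_of_cnt_eq {I J : Ideal R} (hI : I ≠ 0) (hJ : J ≠ 0) (h : ∀ v, cnt v I = cnt v J) :
    I = J := by
  rw [← Ideal.finprod_heightOneSpectrum_factorization hI,
    ← Ideal.finprod_heightOneSpectrum_factorization hJ]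
  refine finprod_congr fun v => ?_
  unfold HeightOneSpectrum.maxPowDividing
  have := h v
  unfold cnt at this
  rw [this]

variable {A : Type*} [CommGroup A]

lemma exists_decomp (Φ : (Ideal R)⁰ →* A) (T : Set (HeightOneSpectrum R))
    (hΦ : ∀ v ∈ T, Φ (pNZ v) = 1) (I : (Ideal R)⁰) :
    ∃ I₂ : (Ideal R)⁰, Φ I₂ = Φ I ∧ (∀ v ∈ T, cnt v (I₂ : Ideal R) = 0) ∧
      ∀ v, v ∉ T → cnt v (I₂ : Ideal R) = cnt v (I : Ideal R) := by
  obtain ⟨I, hI⟩ := I
  induction I using UniqueFactorizationMonoid.induction_on_prime with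
  | h₁ => exact absurd rfl (nonZeroDivisors.ne_zero hI)
  | h₂ x hx =>
    refine ⟨⟨x, hI⟩, rfl, fun v _ => ?_, fun v _ => rfl⟩
    rw [Ideal.isUnit_iff] at hx
    subst hx
    change cnt v (⊤ : Ideal R) = 0
    rw [← Ideal.one_eq_top]
    exact cnt_one v
  | h₃ a p ha hp ih =>
    have ha' : a ∈ (Ideal R)⁰ := mem_nonZeroDivisors_of_ne_zero ha
    obtain ⟨I₂, h1, h2, h3⟩ := ih ha'
    have hI₂ : (I₂ : Ideal R) ≠ 0 := nonZeroDivisors.ne_zero I₂.2
    let w : HeightOneSpectrum R := ⟨p, Ideal.isPrime_of_prime hp, hp.ne_zero⟩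
    have hmul : (⟨p * a, hI⟩ : (Ideal R)⁰) = pNZ w * ⟨a, ha'⟩ := Subtype.ext rfl
    by_cases hw : w ∈ T
    · refine ⟨I₂, ?_, h2, fun v hv => ?_⟩
      · rw [hmul, map_mul, hΦ w hw, one_mul, h1]
      · have hvw : v ≠ w := fun h => hv (h ▸ hw)
        rw [h3 v hv]
        change cnt v a = cnt v (w.asIdeal * a)
        rw [cnt_mul v w.ne_bot ha, cnt_of_ne hvw, zero_add]
    · refine ⟨pNZ w * I₂, ?_, fun v hv => ?_, fun v hv => ?_⟩
      · rw [hmul, map_mul, map_mul, h1]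
      · have hvw : v ≠ w := fun h => hw (h ▸ hv)
        change cnt v (w.asIdeal * I₂) = 0
        rw [cnt_mul v w.ne_bot hI₂, cnt_of_ne hvw, h2 v hv]
      · change cnt v (w.asIdeal * I₂) = cnt v (w.asIdeal * a)
        rw [cnt_mul v w.ne_bot hI₂, cnt_mul v w.ne_bot ha, h3 v hv]

lemma hom_eq_of_cnt_eq (Φ : (Ideal R)⁰ →* A) (T : Set (HeightOneSpectrum R))
    (hΦ : ∀ v ∈ T, Φ (pNZ v) = 1) (I J : (Ideal R)⁰)
    (h : ∀ v, v ∉ T → cnt v (I : Ideal R) = cnt v (J : Ideal R)) : Φ I = Φ J := by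
  obtain ⟨I₂, h1, h2, h3⟩ := exists_decomp Φ T hΦ I
  obtain ⟨J₂, k1, k2, k3⟩ := exists_decomp Φ T hΦ J
  have : I₂ = J₂ := by
    refine Subtype.ext (eq_of_cnt_eq (nonZeroDivisors.ne_zero I₂.2) (nonZeroDivisors.ne_zero J₂.2)
      fun v => ?_)
    by_cases hv : v ∈ T
    · rw [h2 v hv, k2 v hv]
    · rw [h3 v hv, k3 v hv, h v hv]
  rw [← h1, ← k1, this]

end Fermat.Agent.S55.H.SI
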